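-- capture marker 2026-09-28T21:11:48Z (lead): comment-only file, imported by no module; it records the time of the last integrity check of main.
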