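import Fermat.Statements.S24
import Fermat.Agent.S24.Defs
import Fermat.Agent.S24.Alg
import Fermat.Agent.S24.Mod
import Fermat.Agent.S24.Count
import Fermat.Agent.S24.GenusNat

set_option autoImplicit false
open ModularCurve

namespace Fermat.Agent.S24

theorem result (N : ℕ) [NeZero N]
    [AlgebraicCurve.HasCanonicalDivisor (K := AlgebraicClosure ℚ) (F := ↥(ModularCurve.modularFunctionFieldBar N))] :
    (AlgebraicCurve.genus (AlgebraicClosure ℚ) ↥(ModularCurve.modularFunctionFieldBar N) : ℚ)
      = ModularCurve.genusFormula N := by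
  classical
  obtain ⟨P⟩ := nonempty_modularPackage N
  haveI := P.finiteDimensional
  haveI : Finite (XX N) := inferInstance
  have hex : ∃ ω : Ω[↥(modularFunctionFieldBar N)⁄AlgebraicClosure ℚ], ω ≠ 0 :=
    exists_differential_ne_zero (jF N) P.dataInf
  have h1728 : (0 : Kbar) ≠ 1728 := by norm_num
  have hdeg := degree_eq_of_localData (jF N) P.finrank_eq P.dataFin P.dataInf
    ({0, 1728} : Finset Kbar)
    (fun a ha => P.perm_generic a
      (fun h => ha (by simp [h])) (fun h => ha (by simp [h])))
    hex.choose hex.choose_spec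
    (AlgebraicCurve.canonicalDivisorOf hex.choose_spec)
    (fun v => AlgebraicCurve.canonicalDivisorOf_apply hex.choose_spec v)
  rw [Finset.sum_pair h1728, P.orbits_zero, P.orbits_1728, P.orbits_inf] at hdeg
  obtain ⟨g, hg⟩ := exists_genus_nat N
  have hc := card_XX N
  have hS := two_mul_numOrbits_S N
  have hST := three_mul_numOrbits_ST N
  have hT := numOrbits_T N
  have hgenus : AlgebraicCurve.genus (AlgebraicClosure ℚ) ↥(modularFunctionFieldBar N) = g := by
    unfold AlgebraicCurve.genus
    rw [dif_pos hex]
    have : AlgebraicCurve.Divisor.degree (AlgebraicCurve.canonicalDivisorOf hex.choose_spec) + 2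
        = 2 * (g : ℤ) := by
      rw [hdeg, ← hg]; ring
    rw [this]
    omega
  rw [hgenus]
  unfold genusFormula
  have hgQ : (2 : ℚ) * g = (Nat.card (XX N) : ℚ) + 2 - numOrbits (permOf N ModularGroup.S)
        - numOrbits (permOf N (ModularGroup.S * ModularGroup.T))
        - numOrbits (permOf N ModularGroup.T) := by
    have := congrArg (Int.cast : ℤ → ℚ) hg
    push_cast at this
    linarith
  have hSQ : (2 : ℚ) * numOrbits (permOf N ModularGroup.S) = dedekindPsi N + nuTwo N := by
    exact_mod_cast hS
  have hSTQ : (3 : ℚ) * numOrbits (permOf N (ModularGroup.S * ModularGroup.T))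
      = dedekindPsi N + 2 * nuThree N := by
    exact_mod_cast hST
  have hTQ : (numOrbits (permOf N ModularGroup.T) : ℚ) = cuspCount N := by
    exact_mod_cast hT
  have hcQ : (Nat.card (XX N) : ℚ) = dedekindPsi N := by
    exact_mod_cast hc
  linarith

end Fermat.Agent.S24
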