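-- S05: the mod-p Galois representation of the Frey curve is unramified at every prime q ≠ 2, p.
-- Assembly (helper665) of: (C1b) no torsion in the kernel of reduction (helper845),
-- (C2) same-reduction lemma (helper853), (C3c) component analysis at a node (helper365),
-- slope lemma + Galois argument + Frey arithmetic (helper665).
import Fermat.Statements.S05
import Fermat.Agent.S05.AssembleFinal
import Fermat.Agent.S05.C1b
import Fermat.Agent.S05.CompTorsion

set_option autoImplicit false
open WeierstrassCurve WeierstrassCurve.Affine WeierstrassCurve.Affine.Point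
open CuspForm ModularFormClass UpperHalfPlane
open FreyPackage

namespace Fermat.Agent.S05

/-- (C1b) in the form consumed by the assembly. -/
theorem assemble_hC1 : Assemble.HC1 :=
  fun _ _ hW _ n _ hvn P hP h => C1b.eq_zero_of_inKer_of_nsmul_eq_zero hW n hvn P hP h

/-- (C3c) in the form consumed by the assembly. -/
theorem assemble_hC3 : Assemble.HC3 :=
  fun _ _ _ h2 e₁ α β hr _ hα0 hα hβ n hn _ _ x y h hP hx =>
    Comp.c3c h2 e₁ α β (by rw [hr.b₂]; ring) hr.b₄ hr.b₆ hα0 hα hβ n hn x y h hP hx

theorem result (P : FreyPackage) {q : ℕ} (hq : q.Prime) (hq2 : q ≠ 2) (hqp : q ≠ P.p) : P.GaloisRepUnramifiedAt q := by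
  exact Assemble.unramified_of assemble_hC1 assemble_hC3 P hq hq2 hqp

end Fermat.Agent.S05
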