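-- S13 (row 12): a reducible mod-p representation of the Frey curve has a Galois-stable
-- cofixed line.  Elementary route (helper673 / helper13): characters on the stable line and on
-- the quotient, inertia analysis at every prime (S05 away from 2 and p; node law at 2;
-- Gauss bound on the division polynomial at p), Minkowski, and the 2-adic exclusion of a
-- rational point of order p.
-- Pieces: T1 helper891, T3 = S05, T4 helper129, T5 helper64 (+ helper290, helper429,
-- helper575), T6 helper175, T7 helper11 + helper511 (node law) + helper187 (descent),
-- glue and integration helper13.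
import Fermat.Statements.S13
import Fermat.Agent.S05
import Fermat.Agent.S13.Skel
import Fermat.Agent.S13.H891.Frey
import Fermat.Agent.S13.H129.T4
import Fermat.Agent.S13.H64.T5
import Fermat.Agent.S13.H175.Minkowski
import Fermat.Agent.S13.H13.T7

set_option autoImplicit false
open WeierstrassCurve WeierstrassCurve.Affine WeierstrassCurve.Affine.Point
open CuspForm ModularFormClass UpperHalfPlane
open FreyPackage

namespace Fermat.Agent.S13

theorem result (P : FreyPackage) (hred : ¬ GaloisRepIsIrreducible (K := AlgebraicClosure ℚ) ℚ P.freyCurve P.p) : HasGaloisStableCofixedLine (K := AlgebraicClosure ℚ) ℚ P.freyCurve P.p := by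
  exact Skel.result_of_parts P (H891.T1_frey P)
    (fun q hq hq2 hqp => Fermat.Agent.S05.result P hq hq2 hqp)
    (H129.T4 P)
    (H64.T5 P)
    (Skel.minkowski_subgroup_of_character
      (fun _ _ χ hopen hunr => H175.minkowski_character χ hopen hunr))
    (H13.frey_T7 P)
    Fermat.Agent.S54.exists_valuationSubring_liesOver
    hred

end Fermat.Agent.S13
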