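import Fermat.Statements.S29
import Fermat.Agent.S29.Gate
import Fermat.Agent.S18.Mod.H216.NodeMod
import Fermat.Agent.S18.H438.NodeAlg

/-!
# S29 — a normalised weight-2 eigenform on `Γ₀(N)` has an attached mod-`p` Galois representation,
unramified outside `N p`.

Final chain (row-lead helper269): `Fermat.Agent.S29.S29_of_nodes` (`S29/Gate.lean`) applied to the
two nodes of row S18 (`node_mod` helper216, `node_alg` helper438).  Tower: layer A (`H872`,
Brauer–Nesbitt/Burnside + Frobenius density `Lib.Cheb`), layer M (`J₀(N)(ℚ̄)[p]`: Kummer bridge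
`M4b` = twisted Eisenstein series, dictionary, descent `ℂ → ℚ̄`, Hecke norm; eigensystem in parabolic
cohomology `M4a`), Eichler–Shimura from the S18 hub (`H222`).
-/

set_option autoImplicit false
open CuspForm CuspForm.IsNormalizedEigenform

namespace Fermat.Agent.S29

theorem result
    {N : ℕ} {g : CuspForm (CongruenceSubgroup.Gamma0 N) 2} (hg : g.IsNormalizedEigenform)
    {p : ℕ} (hp : p.Prime) {k : Type} [Field k] [CharP k p]
    (φ : integralClosure ℤ ℂ →+* k) :
    ∃ ρ : ResidualGaloisRep k, ρ.IsAttachedTo g φ ∧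
      ∀ ℓ : ℕ, ℓ.Prime → ¬ ℓ ∣ N * p → ρ.IsUnramifiedAt ℓ :=
  S29_of_nodes (fun M _ _ _ hℓM A hA => Fermat.Agent.S18.Mod.H216.node_mod M hℓM A hA)
    (fun M => Fermat.Agent.S18.H438.node_alg M) hg hp φ

end Fermat.Agent.S29
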