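-- Statement S42 (row 40): the prelude property `EigenformResidualAttachmentAt M` for the Frey
-- package's prime `p` and every level `M > 0`.
-- Chain: S42.Glue (frozen S29 + finiteness of `E[p]` ⟹ S42), S29.S29_of_core_K3 (row S29),
-- M4b.K3.pieceK3 (PIECE K3), and the S18 hub from the two S18 nodes (`node_mod`, `node_alg`).
import Fermat.Statements.S42
import Fermat.Agent.S42.Reduce
import Fermat.Agent.S18.H694.CoreFamilyOfNodes
import Fermat.Agent.S18.Mod.H216.NodeMod
import Fermat.Agent.S18.H438.NodeAlg

set_option autoImplicit false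
open FreyPackage

namespace Fermat.Agent.S42

/-- The S18 hub for prime moduli (input of row S29), from the two closed S18 nodes. -/
theorem corePrimeFamily_of_nodes : Fermat.Agent.S29.CorePrimeFamily :=
  fun N _ ℓ p hℓ hp hℓN hℓp A hA =>
    Fermat.Agent.S18.H694.coreFamily_of_nodes
      (fun M _ _ _ hℓM A hA => Fermat.Agent.S18.Mod.H216.node_mod M hℓM A hA)
      Fermat.Agent.S18.H438.node_alg N ℓ hℓ hℓN p
      (fun h => hℓp ((Nat.prime_dvd_prime_iff_eq hℓ hp).mp h)) A hA

theorem result (P : FreyPackage) :
    ∀ M : ℕ, 0 < M → P.EigenformResidualAttachmentAt M :=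
  S42_of_core corePrimeFamily_of_nodes P

end Fermat.Agent.S42
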