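-- Statement S20 (row 19): dim S₂(Γ₀(N)) = genus formula.
-- Frame route (captain helper20): fundamental system (unimodular frame) of ⊕ₖ M_k(Γ₀(N)) over ℂ[E₄,E₆],
-- class counts of the weights mod 4 / mod 6, degree relation, Cramer duality, numerics.
import Fermat.Statements.S20
import Fermat.Agent.S20.Core
import Fermat.Agent.S20.C0_helper516
import Fermat.Agent.S20.C1_helper980
import Fermat.Agent.S20.P1_helper225
import Fermat.Agent.S20.P2_helper280
import Fermat.Agent.S20.P3_helper361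
import Fermat.Agent.S20.P4_helper479
import Fermat.Agent.S20.P5Asm_helper398
import Fermat.Agent.S20.H800.FundGamma0

set_option autoImplicit false
open CuspForm

namespace Fermat.Agent.S20

open UpperHalfPlane ModularForm CongruenceSubgroup MatrixGroups Filter Module in
theorem result (N : ℕ) [NeZero N] :
    (Module.finrank ℂ (CuspForm (CongruenceSubgroup.Gamma0 N) 2) : ℚ) = ModularCurve.genusFormula N := by
  have hneg := H800.neg_one_mem_Gamma0 N
  obtain ⟨𝔉⟩ := H800.exists_fundSystem_Gamma0 N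
  have hP20 : ∀ j, 0 ≤ 𝔉.wt j ∧ Even (𝔉.wt j) := fun j =>
    P2h280.FundSystem.wt_even_nonneg (fun hk => C0h516.MF_eq_bot_of_neg _ hk) hneg 𝔉 j
  have hSF : ∀ k : ℤ, k ≤ 0 → SF (Gamma0 N) k = ⊥ := fun k hk => C980.SF_eq_bot_of_nonpos _ hk
  have hΔ : ∀ (k : ℤ) (f : ℍ → ℂ), f ∈ SF (⊤ : Subgroup SL(2, ℤ)) k →
      ∃ g ∈ MF (⊤ : Subgroup SL(2, ℤ)) (k - 12), f = ModularForm.discriminant * g :=
    fun k f hf => C980.exists_eq_discriminant_mul_top hf
  have hnegtop : ∀ k : ℤ, k < 0 → MF (⊤ : Subgroup SL(2, ℤ)) k = ⊥ :=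
    fun k hk => C980.MF_eq_bot_of_neg _ hk
  have hconst : ∀ f ∈ MF (⊤ : Subgroup SL(2, ℤ)) 0, ∃ c : ℂ, f = fun _ => c :=
    fun f hf => C980.MF_zero_eq_const _ hf
  refine P5helper398.S20_of_core N (C0h516.SFequiv (Gamma0 N) 2) 𝔉 ?_ ?_ ?_ ?_ ?_ ?_ ?_
  · -- P2.0
    exact hP20
  · -- P2.1
    exact P2h280.FundSystem.card_wt_mod_four (fun hk => C0h516.MF_eq_bot_of_neg _ hk)
      (fun hf γ τ x => C0h516.ev_smul hf γ τ x)
      (fun σ hσ ε hε => P1h225.finrank_invariants_of_sq_eq_one σ hσ ε hε) hneg 𝔉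
  · -- P2.2
    exact P2h280.FundSystem.card_wt_mod_six (fun hk => C0h516.MF_eq_bot_of_neg _ hk)
      (fun hf γ τ x => C0h516.ev_smul hf γ τ x)
      (fun σ hσ ε hε => P1h225.finrank_invariants_of_cube_eq_one σ hσ ε hε) hneg 𝔉
  · -- P3
    exact P3helper361.sum_wt_of (fun hf γ τ x => C0h516.ev_smul hf γ τ x)
      (P1h225.det_Theta _) (P1h225.Theta_add _) (P1h225.Theta_zero _)
      (fun hf h0 hinf => C980.weight_eq_zero_of_nonvanishing hf h0 hinf) 𝔉
  · -- P4.1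
    exact fun j => P4h479.wt_le_ten 𝔉 hSF (fun j => (hP20 j).2) j
  · -- P4.2
    exact P4h479.finrank_SF_two 𝔉 hΔ hnegtop hconst hSF (fun j => (hP20 j).2)
  · -- P4.3
    exact P4h479.card_wt_zero 𝔉 (fun k hk => C980.MF_eq_bot_of_neg _ hk)
      (fun f hf => C980.MF_zero_eq_const _ hf) hnegtop

end Fermat.Agent.S20
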