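import Fermat.Statements.S18
import Fermat.Agent.S18.Integ.Final
import Fermat.Agent.S18.Mod.H216.NodeMod
import Fermat.Agent.S18.H438.NodeAlg

/-!
# S18 — injectivity of reduction mod `ℓ` on prime-to-`ℓ` torsion of `J₀(N)` (row-lead helper18)

`result` = `Integ.s18_of_mod_alg` (final chain, `S18/Integ/Final.lean`) applied to

* `Mod.H216.node_mod` : `Mod.GoodModelStatement M ℓ A` (good model of `X₀(M)` over `A ∩ E`; MOD squads,
  assembled by helper216), and
* `H438.node_alg` : `Mod.AlgStatement M` (abstract Kummer endgame; ALG squads, assembled by helper438),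

at the level `M = levelM N ℓ` (`N` for `ℓ ≥ 5`, `lcm N 2` for `ℓ = 3`, `lcm N 3` for `ℓ = 2`).
-/

set_option autoImplicit false
open ModularCurve

namespace Fermat.Agent.S18

theorem result (N : ℕ) [NeZero N] {ℓ : ℕ}
    [Fact ℓ.Prime] (hℓN : ¬ ℓ ∣ N) (A : ValuationSubring (AlgebraicClosure ℚ)) (hA : A.LiesOverPrime ℓ)
    (h : ModularCurve.ReductionInputsModL A N) (m : ℕ) (hm : ¬ ℓ ∣ m) (z : ModularCurve.JZero N)
    (hmz : m • z = 0) (hz : ModularCurve.reductionModL A N z = 0) :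
    z = 0 :=
  haveI : NeZero (Integ.levelM N ℓ) := ⟨Integ.levelM_ne_zero N ℓ⟩
  Integ.s18_of_mod_alg N hℓN A hA
    (Mod.H216.node_mod (Integ.levelM N ℓ) (Integ.not_dvd_levelM N hℓN) A hA)
    (H438.node_alg (Integ.levelM N ℓ)) h m hm z hmz hz

end Fermat.Agent.S18
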