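import Fermat.Statements.S23
import Fermat.Agent.S23.Cap.Main

set_option autoImplicit false
open CuspForm

namespace Fermat.Agent.S23

theorem result (N : ℕ) [NeZero N] : CuspForm.HasIntegralStructure N 2 :=
  Fermat.Agent.S23.Cap.hasIntegralStructure N 2

end Fermat.Agent.S23
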