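import Fermat.Statements.S02

set_option autoImplicit false
open FreyPackage

namespace Fermat.Agent.S02

/-- Core constructor: from a coprime solution with `b` even, build a Frey package. -/
theorem nonempty_of_coprime_even (a b c : ℤ) (ha : a ≠ 0) (hb : b ≠ 0) (hc : c ≠ 0)
    (p : ℕ) (pp : p.Prime) (hp5 : 5 ≤ p) (H : a ^ p + b ^ p = c ^ p)
    (hab : IsCoprime a b) (hbe : (2 : ℤ) ∣ b) : Nonempty FreyPackage := by
  have hpodd : Odd p := pp.odd_of_ne_two (by omega)
  have hgcd : gcd a b = 1 := by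
    have h1 : Int.gcd a b = 1 := Int.isCoprime_iff_gcd_eq_one.mp hab
    change ((Int.gcd a b : ℕ) : ℤ) = 1
    rw [h1]; rfl
  have hb2 : (b : ZMod 2) = 0 := (ZMod.intCast_zmod_eq_zero_iff_dvd b 2).2 (by exact_mod_cast hbe)
  -- a is odd
  have haodd : ¬ (2 : ℤ) ∣ a := by
    intro h2a
    have : IsUnit (2 : ℤ) := hab.isUnit_of_dvd' h2a hbe
    rw [Int.isUnit_iff] at this
    omega
  have hamod : a % 4 = 1 ∨ a % 4 = 3 := by omega
  rcases hamod with h1 | h3
  · -- replace by negatives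
    refine ⟨⟨-a, -b, -c, neg_ne_zero.2 ha, neg_ne_zero.2 hb, neg_ne_zero.2 hc, p, pp, hp5, ?_, ?_, ?_, ?_⟩⟩
    · rw [hpodd.neg_pow, hpodd.neg_pow, hpodd.neg_pow, ← H]; ring
    · rw [gcd_neg, neg_gcd]; exact hgcd
    · have : ((-a : ℤ) : ZMod 4) = ((3 : ℤ) : ZMod 4) := by
        rw [ZMod.intCast_eq_intCast_iff_dvd_sub]
        push_cast
        omega
      simpa using this
    · simp [hb2]
  · refine ⟨⟨a, b, c, ha, hb, hc, p, pp, hp5, H, hgcd, ?_, hb2⟩⟩
    have : ((a : ℤ) : ZMod 4) = ((3 : ℤ) : ZMod 4) := by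
      rw [ZMod.intCast_eq_intCast_iff_dvd_sub]
      push_cast
      omega
    simpa using this

theorem result (a b c : ℤ) (ha : a ≠ 0) (hb : b ≠ 0) (hc : c ≠ 0) (p : ℕ) (pp : p.Prime) (hp5 : 5 ≤ p) (H : a ^ p + b ^ p = c ^ p) : Nonempty FreyPackage := by
  have hp0 : p ≠ 0 := pp.ne_zero
  have hpodd : Odd p := pp.odd_of_ne_two (by omega)
  -- reduce to coprime a, b
  obtain ⟨d, a', b', hd, rfl, rfl, hcop⟩ :
      ∃ d a' b' : ℤ, d ≠ 0 ∧ a = d * a' ∧ b = d * b' ∧ IsCoprime a' b' := by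
    obtain ⟨a', b', hg, h1, h2⟩ := Int.exists_gcd_one (m := a) (n := b)
      (Int.gcd_pos_of_ne_zero_left b ha)
    refine ⟨(Int.gcd a b : ℤ), a', b', ?_, ?_, ?_, ?_⟩
    · exact_mod_cast (Int.gcd_pos_of_ne_zero_left b ha).ne'
    · exact h1.trans (mul_comm _ _)
    · exact h2.trans (mul_comm _ _)
    · exact Int.isCoprime_iff_gcd_eq_one.mpr hg
  have ha' : a' ≠ 0 := right_ne_zero_of_mul ha
  have hb' : b' ≠ 0 := right_ne_zero_of_mul hb
  have hdc : d ∣ c := by
    rw [← Int.pow_dvd_pow_iff hp0, ← H]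
    exact dvd_add (by rw [mul_pow]; exact dvd_mul_right _ _) (by rw [mul_pow]; exact dvd_mul_right _ _)
  obtain ⟨c', rfl⟩ := hdc
  have hc' : c' ≠ 0 := right_ne_zero_of_mul hc
  have H' : a' ^ p + b' ^ p = c' ^ p := by
    have hdp : d ^ p ≠ 0 := pow_ne_zero _ hd
    apply mul_left_cancel₀ hdp
    rw [mul_add, ← mul_pow, ← mul_pow, ← mul_pow]; exact H
  clear H ha hb hc
  -- pairwise coprimality
  have hac : IsCoprime a' c' := by
    have : IsCoprime (a' ^ p) (c' ^ p) := by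
      rw [← H']
      have := (hcop.pow (m := p) (n := p))
      simpa [add_comm] using IsCoprime.add_mul_left_right this 1
    exact (IsCoprime.pow_iff (Nat.pos_of_ne_zero hp0) (Nat.pos_of_ne_zero hp0)).1 this
  have hbc : IsCoprime b' c' := by
    have : IsCoprime (b' ^ p) (c' ^ p) := by
      rw [← H']
      have := (hcop.symm.pow (m := p) (n := p))
      simpa using IsCoprime.add_mul_left_right this 1
    exact (IsCoprime.pow_iff (Nat.pos_of_ne_zero hp0) (Nat.pos_of_ne_zero hp0)).1 this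
  -- parity
  by_cases hbe : (2 : ℤ) ∣ b'
  · exact nonempty_of_coprime_even a' b' c' ha' hb' hc' p pp hp5 H' hcop hbe
  by_cases hae : (2 : ℤ) ∣ a'
  · exact nonempty_of_coprime_even b' a' c' hb' ha' hc' p pp hp5 (by rw [add_comm]; exact H')
      hcop.symm hae
  -- both odd, so c' is even
  have hce : (2 : ℤ) ∣ c' := by
    have h1 : Odd a' := by rwa [← Int.not_even_iff_odd, even_iff_two_dvd]
    have h2 : Odd b' := by rwa [← Int.not_even_iff_odd, even_iff_two_dvd]
    have h3 : Even (c' ^ p) := by rw [← H']; exact (h1.pow).add_odd (h2.pow)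
    rw [← even_iff_two_dvd]
    exact (Int.even_pow.1 h3).1
  -- a'^p + (-c')^p = (-b')^p
  refine nonempty_of_coprime_even a' (-c') (-b') ha' (neg_ne_zero.2 hc') (neg_ne_zero.2 hb') p pp hp5 ?_
    hac.neg_right ((dvd_neg).2 hce)
  rw [hpodd.neg_pow, hpodd.neg_pow, ← H']; ring

end Fermat.Agent.S02
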