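import Fermat.Statements.S06
import Fermat.Agent.Pack.S45.E4L0
import Fermat.Agent.Pack.L1.E10L0
import Fermat.Agent.Pack.LT4.E13L0

set_option autoImplicit false
open WeierstrassCurve WeierstrassCurve.Affine WeierstrassCurve.Affine.Point
open CuspForm ModularFormClass UpperHalfPlane
open FreyPackage

namespace Fermat.Agent.S06

theorem result (P : FreyPackage) : ∃ N : ℕ, P.IsConductorLevel N ∧ P.ModularRepOfLevel N := by
  exact Fermat.Agent.Glue.Top5.s06_of_s47 Fermat.Agent.LT.Final.s47 P

end Fermat.Agent.S06
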