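import Fermat.Statements.S10
import Fermat.Agent.S10.Final
import Fermat.Agent.S10.FLTOfKummer
import Fermat.Agent.S10.SophieGermain
import Fermat.Agent.S10.PID7Full
import Fermat.Agent.S10.PID13h430
import Fermat.Agent.S10.Kummer

set_option autoImplicit false
open WeierstrassCurve WeierstrassCurve.Affine WeierstrassCurve.Affine.Point
open CuspForm ModularFormClass UpperHalfPlane
open FreyPackage

namespace Fermat.Agent.S10

open NumberField



set_option backward.isDefEq.respectTransparency false in
/-- Fermat's Last Theorem for exponent `5`. -/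
theorem flt_five : FermatLastTheoremFor 5 := by
  have hp : Fact (Nat.Prime 5) := ⟨by norm_num⟩
  have : NumberField (CyclotomicField 5 ℚ) := IsCyclotomicExtension.numberField {5} ℚ _
  refine flt_of_kummer 5 (by norm_num) (fun a b c hab h ↦ caseI_five_of_isCoprime hab h)
    (CyclotomicField 5 ℚ) (IsCyclotomicExtension.Rat.five_pid _) ?_
  intro u hu
  exact Kummer.kummer_five _ u (by simpa using hu)

set_option backward.isDefEq.respectTransparency false in
/-- Fermat's Last Theorem for exponent `7`. -/
theorem flt_seven : FermatLastTheoremFor 7 := by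
  have hp : Fact (Nat.Prime 7) := ⟨by norm_num⟩
  have : NumberField (CyclotomicField 7 ℚ) := IsCyclotomicExtension.numberField {7} ℚ _
  refine flt_of_kummer 7 (by norm_num) (fun a b c hab h ↦ caseI_seven_of_isCoprime hab h)
    (CyclotomicField 7 ℚ) (R378.seven_pid _) ?_
  intro u hu
  exact Kummer.kummer_seven _ u (by simpa using hu)

set_option backward.isDefEq.respectTransparency false in
/-- Fermat's Last Theorem for exponent `13`. -/
theorem flt_thirteen : FermatLastTheoremFor 13 := by
  have hp : Fact (Nat.Prime 13) := ⟨by norm_num⟩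
  have : NumberField (CyclotomicField 13 ℚ) := IsCyclotomicExtension.numberField {13} ℚ _
  refine flt_of_kummer 13 (by norm_num) (fun a b c hab h ↦ caseI_thirteen_of_isCoprime hab h)
    (CyclotomicField 13 ℚ) (thirteen_pid_h430 _) ?_
  intro u hu
  exact Kummer.kummer_thirteen _ u (by simpa using hu)

theorem result (P : FreyPackage) (hp : P.p = 5 ∨ P.p = 7 ∨ P.p = 13) : ¬ HasGaloisStableCofixedLine (K := AlgebraicClosure ℚ) ℚ P.freyCurve P.p :=
  result_of_flt flt_five flt_seven flt_thirteen P hp

end Fermat.Agent.S10
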