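import Fermat.Statements.S14
import Fermat.Agent.S14.MainOf
import Fermat.Agent.S14.H366.Reduction
import Fermat.Agent.S14.H225.Cat
import Fermat.Agent.S14.H178.CAT3
import Fermat.Agent.S14.Thaine430.Final
import Fermat.Agent.S14.H74.Density
import Fermat.Agent.S14.H246.UnitSpec

set_option autoImplicit false
open ExtCitation

namespace Fermat.Agent.S14

theorem result {p : ℕ} [Fact p.Prime] (h3 : 3 ≤ p) :
    ExtCitation.ExtVanishingCts p :=
  extVanishingCts_of H366.reductionStatement
    (H225.cat_of Thaine430.thaineStatement H74.densityStatement H246.unitStatement)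
    H178.cat3 h3

end Fermat.Agent.S14
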