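import Fermat.Statements.S37
import Fermat.Agent.S37.Core.Inst

/-!
# S37 — Eichler–Shimura congruence relation for `J₀(N)` (row-lead helper37)

`result` = `Core.specializationExists` (`Fermat/Agent/S37/Core/Inst.lean`):

* `Core.result_of_rim_s18` (`Core/Board.lean`): S37 from the place reduction map at good levels
  (`RimStatement`) and the frozen S18 (`Fermat.Agent.S18.result`), via
  `H697.weakRedData_of_red` (bounded-homomorphism route: Kronecker congruence for norms,
  helper697/819/340/400), `H818.node_pull` (levels `2N`, `3N` for `ℓ = 3, 2`, helper818),
  `Core.result_of_weakRedData` and helper99's formal core;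
* `RimStatement` from a linked reduction datum with good charts (`Core/RimGlue.lean`,
  abstract theorem `Red.H940.main_of_fibreSum` of helper940/160/399, architect helper40),
  whose leaves are `Core.datumLeaf` (D1), `H278.leaf_normalAbs` (D2, normality of the special
  fibre from `b2Normal` of row S18), `H697.liftLeaf` (D3), `H339.leaf_H1` (D4),
  `S18.Mod.H216.node_mod` (good models of row S18).
-/

set_option autoImplicit false
open ModularCurve

namespace Fermat.Agent.S37

theorem result (N p : ℕ) [NeZero N] (hcomm : ModularCurve.HeckeOperatorsCommuteBar N) : letI := ModularCurve.heckeModuleBar N; ∀ (_ : SMulCommClass (AlgebraicClosure ℚ ≃ₐ[ℚ] AlgebraicClosure ℚ) ModularCurve.HeckeAlg (ModularCurve.JZero N)), ModularCurve.SpecializationExists (K := ℚ) (L := AlgebraicClosure ℚ) N p (ModularCurve.JZero N) :=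
  Core.specializationExists N p hcomm

end Fermat.Agent.S37
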