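import Fermat.Statements.S16
import Fermat.Agent.S16.Interface
import Fermat.Agent.S16.H607.Small
import Fermat.Agent.S16.H428.EisSkel
import Fermat.Agent.S16.H497.U2
import Fermat.Agent.S16.H556.UB
import Fermat.Agent.S16.H848.LatSkel
import Fermat.Agent.S16.H76.LBTail
import Fermat.Agent.S16.H377.SkelFR
import Fermat.Agent.S16.H260.U0
import Fermat.Agent.S16.H196.L1
import Fermat.Agent.S16.H756.WeilInst
import Fermat.Agent.S16.H496.U4Skel
import Fermat.Agent.S16.H127.ResultOfForms
import Fermat.Agent.S16.H36.ThetaInv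
import Fermat.Agent.S16.H488.QCoeffTheta

/-! S16: final assembly (helper556). -/

set_option autoImplicit false
open ModularCurve CuspForm

noncomputable section

namespace Fermat.Agent.S16

open UpperHalfPlane ModularForm CongruenceSubgroup MatrixGroups ModularFormClass EisensteinSeries
open Fermat.Agent.S20 (MF SF)
open scoped Manifold

/-! ### adapters -/

theorem asm_hasEis (p : ℕ) [Fact p.Prime] : HasEis p := H428.exists_eis p

theorem asm_exists_goodLattice (p : ℕ) [Fact p.Prime] (hp : p ≠ 2) :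
    ∃ q r t : ℤ, 0 < q ∧ q % 4 = 3 ∧ r ^ 2 + (p : ℤ) = q * t ∧
      ∃ B, IsGoodLattice p (ibuA p q r t) B := by
  obtain ⟨q, r, t, hq, hq4, hrt, B, h1, h2, h3, h4, h5, h6⟩ := H848.exists_goodLattice_fields p hp
  exact ⟨q, r, t, hq, hq4, hrt, B, ⟨h1, h2, h3, h4, h5, h6⟩⟩

/-! ### assembly -/

theorem asm_upperBound (p : ℕ) [Fact p.Prime] (hp5 : 5 ≤ p) : UpperBound p :=
  H556.upperBound_of p hp5 (fun _ hG hint => H260.U0_denominator p (fun hG => H377.FR.hat_two p hG)
      (fun hF => H377.FR.tr_mem_SF p hF) H196.exists_tau hG hint)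
    (fun _ hG ℓ hℓ a s hs h0 hc => H497.U2 p hG ℓ hℓ a s hs h0 hc)
    (fun h8 _ hG s hs h0 hc => H496.U4 p h8 hG s hs h0 hc)

theorem asm_lowerBound (p : ℕ) [Fact p.Prime] (hp5 : 5 ≤ p) : LowerBound p := by
  obtain ⟨q, r, t, hq, hq4, hrt, B, hA⟩ := asm_exists_goodLattice p (by omega)
  have hmem := H756.theta_mem_MF p _ B hA (H36.theta_inversion p q r t hq hq4 hrt B hA)
  obtain ⟨h0, hk⟩ := H488.qCoeff_theta p _ B hA
  exact H76.lowerBound_of_theta p hmem h0 hk

theorem result (p : ℕ) [Fact p.Prime] :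
    Nat.card (↥(heckeLatticeAlgebra p ∅) ⧸
        Ideal.map ((latticeRestrictHom p ∅).toRingHom.comp (heckeEvalForms p 2))
          (eisensteinIdeal p)) =
      eisensteinNumerator p := by
  by_cases hp : p < 5
  · exact H607.result_small p hp
  · have hp5 : 5 ≤ p := by omega
    exact H127.result_of_forms p hp5 (asm_hasEis p) (H377.FR.cusp_crit p)
      (asm_upperBound p hp5) (asm_lowerBound p hp5)

end Fermat.Agent.S16
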