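import Fermat.Statements.S26
import Fermat.Agent.S25
import Fermat.Agent.S26.Top
import Fermat.Agent.S26.TopDeg
import Fermat.Agent.S26.TopPic2
import Fermat.Agent.S26.Soft.H746.Soft
import Fermat.Agent.S26.H478.Generic
import Fermat.Agent.S26.H687.Integral
import Fermat.Agent.S26.FF.H660.FFRank
import Fermat.Agent.S26.H164.LSDiv
import Fermat.Agent.S26.H219.LSPullback
import Fermat.Agent.S26.LS.H798.Pow
import Fermat.Agent.S26.Beta.H867.Beta
import Fermat.Agent.S26.Pic.Top
import Fermat.Agent.S26.H605.GenericTrivial
import Fermat.Agent.S26.C4.Reduce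
import Fermat.Agent.S26.H626.C4b
import Fermat.Agent.S26.Ample.Final

set_option autoImplicit false
set_option autoImplicit false
open CategoryTheory CategoryTheory.Limits AlgebraicGeometry NeronModelInfra GoodReductionJacobian
universe u
open GoodReductionJacobian GoodReductionJacobian.RelativeGroupLaw

namespace Fermat.Agent.S26

theorem result
    (K : Type u) [Field K] [IsAlgClosed K] {A : Scheme.{u}} (f : A ⟶ Spec (CommRingCat.of K))
    (L : RelativeGroupLaw K f) (hc : L.IsCommutative) (hA : AbelianSchemePropertyBundle K f)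
    (g : ℕ) [SmoothOfRelativeDimension g f] (n : ℕ) (hn : (n : K) ≠ 0) :
    Nat.card {x : SchemeHomOver (𝟙 (Spec (CommRingCat.of K))) f //
        L.IsTorsionPoint (𝟙 (Spec (CommRingCat.of K))) n x} = n ^ (2 * g) := by
  -- row S25 (existence of Jacobians), consumed by the cube for curves
  have hS25 : H687.S25Statement.{u} := fun k _ _ _ c _ _ _ ε => Fermat.Agent.S25.result k c ε
  -- blocks PIC + CUBE: the theorem of the cube for the Cech Picard functor
  have hGen : ∀ (K' : Type u) [Field K'] [IsAlgClosed K'], Stmt.CurvesGenerate K' :=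
    fun K' _ _ => C4.curvesGenerate_of_c4b K' (H626.c4b K')
  have hPC : Stmt.PicCube K := Pic.picCube_of hS25 hGen K (H605.genericTrivial K)
  have hSq : Stmt.SquareLS K := squareLS_of hPC H164.cDivOps
  have hQ : Stmt.NQuad K := nquad_of hPC H164.lsDiv H164.cDivOps H164.lsDivOps
  -- block AMPLE
  have hα : Stmt.Alpha K := Ample.alpha_of_squareLS K hSq
  -- block SOFT
  have hSoft : Stmt.Soft K := Soft.H746.soft K
  -- the degree of `[n]`
  have hDeg : Stmt.Deg K :=
    deg_of_blocks K (H687.integral K) (H478.generic_of_soft K hSoft) (FF.H660.ffRank660 K) hα hQ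
      Beta.H867.beta (H219.lsPullback K) (LS.H798.lsPow K) (LS.H798.lsScale K)
  exact result_of_blocks K hSoft hDeg f L hc hA g n hn

end Fermat.Agent.S26
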