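import Fermat.Statements.S27
import Fermat.Agent.S25
import Fermat.Agent.S26
import Fermat.Agent.S27.TopSmall
import Fermat.Agent.S27.H323.Tensor
import Fermat.Agent.S27.H660.Conn
import Fermat.Agent.S27.H267.Genus
import Fermat.Agent.S27.H443.FFAlgLeaf
import Fermat.Agent.S27.H866.Main
import Fermat.Agent.S27.H386.Grp
import Fermat.Agent.S27.H506.PtsDict
import Fermat.Agent.S27.H970.PicCl
import Fermat.Agent.S27.Dim.D1
import Fermat.Agent.S27.H551.TanGlue
import Fermat.Agent.S27.H351.ChartLoc
import Fermat.Agent.S27.H446.PtsDictA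

set_option autoImplicit false
set_option autoImplicit false
open AlgebraicCurve
open AlgebraicCurve AlgebraicCurve.Pic0

namespace Fermat.Agent.S27

theorem result
    (K F : Type*) [Field K] [Field F] [Algebra K F] [IsAlgClosed K] [CharZero K]
    [IsCurveOver K F] [Algebra.EssFiniteType K F]
    (ℓ : ℕ) [Fact ℓ.Prime] (k : ℕ) :
    Nat.card (Pic0.torsion K F (ℓ ^ k)) = ℓ ^ (2 * genusFF K F * k) :=
  result_of_leaves
    (fun k _ _ _ c _ _ _ ε => Fermat.Agent.S25.result k c ε)
    (fun K _ _ _ f L hc hA g _ n hn => Fermat.Agent.S26.result K f L hc hA g n hn)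
    H323.tensorExists
    (fun K F _ _ _ => H443.ffAlg K F)
    (fun K _ => H866.curveScheme K)
    (fun K _ => H386.grp K)
    (fun K _ => Dim.main_of_tan_d1 K
      (H551.tan_of_chartAt_loc_ptsDictA K (H351.chartAt K) (H351.loc K) (H446.ptsDictA K)))
    (fun K _ => H660.conn K)
    (fun K _ => H506.ptsDict K)
    (fun K F _ _ _ => H267.genus K F)
    (fun K F _ _ _ => H970.picCl K F)
    K F ℓ k

end Fermat.Agent.S27
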