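import Fermat.Statements.S28
import Fermat.Agent.S28.H806.Valuation
import Fermat.Agent.S28.H508.CoreToBasis
import Fermat.Agent.S28.H867.Core
import Fermat.Agent.S28.H807.Analytic
import Fermat.Agent.S28.H25.Theta

set_option autoImplicit false
open AlgebraicGeometry CategoryTheory CategoryTheory.Limits ModularCurve ModularCurve.IgusaScheme
noncomputable section
set_option autoImplicit false
open ModularCurve ModularCurve.IgusaScheme

namespace Fermat.Agent.S28

set_option maxHeartbeats 4000000 in
set_option synthInstance.maxHeartbeats 400000 in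
theorem result
    (N : ℕ) [NeZero N] (ℓ : ℕ) [Fact ℓ.Prime] (hℓN : ¬ ℓ ∣ N)
    (K : Type) [Field K] [CharP K ℓ] [Algebra ↥(GaloisRep.ratLocalizedAt ℓ) K] :
    IsIntegral ↑(pullback (igusaTo N ℓ)
      (Spec.map (CommRingCat.ofHom (algebraMap ↥(GaloisRep.ratLocalizedAt ℓ) K)))) := by
  -- [A] prime-level analytic inputs (helper807, helper25) => [L] CoreData over 𝔽_ℓ (helper867)
  have core : CoreData N (ZMod ℓ) :=
    H867.coreData_of_inputs N ℓ hℓN (ZMod ℓ)
      (fun p hp _ _ => H807.nonempty_modPolyData p hp)
      (fun p hp _ _ => H807.nonempty_unitPolyData p hp)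
      H25.theta_identity
  -- adapter (helper508) => [V] valuation layer + spine (helper806, helper28, helper928, helper746)
  exact H806.isIntegral_of_basisData (H508.basisData_of_coreData N ℓ core) K

end Fermat.Agent.S28
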