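import Fermat.Statements.S31
import Fermat.Agent.S31.H22.FinalS30
import Fermat.Agent.S30

/-!
# S31 (row-lead helper22)

The Galois representation of a Hecke-Galois datum of level `N` away from `S` is unramified at
every prime outside `S`.

`result` = `Fermat.Agent.S31.H22.result_of_S30` applied to `Fermat.Agent.S30.result`.
Inputs of `result_of_S30` (all on main): Chebotarev in Frobenius-division form (`Lib.Cheb.H943`),
finiteness of the Hecke algebra (`Fermat.Agent.S22.result`), reducedness of the Hecke algebra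
(`S31.H862`, Petersson), the trace criterion (`S31.H202`), the points of a reduced algebra
(`S31.H262`) and the trace continuity and assembly (`S31.H22`).
-/

set_option autoImplicit false
variable {p : ℕ} {N : ℕ} [NeZero N] {S : Finset ℕ}
  {𝒪 : Type} [CommRing 𝒪] [IsDomain 𝒪] [IsDiscreteValuationRing 𝒪]
  [IsAdicComplete (IsLocalRing.maximalIdeal 𝒪) 𝒪]
  {θ : CuspForm.heckeAlgebra N 2 (↑S : Set ℕ) →+* IsLocalRing.ResidueField 𝒪}
  {T : Type} [CommRing T] [IsLocalRing T] [IsNoetherianRing T]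
  [IsAdicComplete (IsLocalRing.maximalIdeal T) T] [Algebra 𝒪 T] [IsLocalHom (algebraMap 𝒪 T)]
  [Module.Finite 𝒪 T] [Module.Free 𝒪 T]
open CuspForm CuspForm.HeckeGaloisRepDatum

namespace Fermat.Agent.S31

theorem result (hp : p.Prime)
    (hp𝒪 : (p : 𝒪) ∈ IsLocalRing.maximalIdeal 𝒪) (hpS : p ∈ S)
    (hNS : ∀ q : ℕ, q.Prime → q ∣ N → q ∈ S)
    (H : CuspForm.HeckeGaloisRepDatum N (↑S : Set ℕ) 𝒪 θ T)
    (q : ℕ) (hq : q.Prime) (hqS : q ∉ S) :
    H.ρ.IsUnramifiedAt q :=
  Fermat.Agent.S31.H22.result_of_S30 Fermat.Agent.S30.result hp hp𝒪 hpS hNS H q hq hqS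

end Fermat.Agent.S31
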