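import Fermat.Statements.S32
import Fermat.Agent.Pack.S3234.G4E6L0





/-!
# S32 — a Hecke–Galois datum of level `N`, `p ∤ N`, `p` odd, is flat at `p`

`result` = `S32.s32_of_frozen_s19` (top glue of helper32, `Fermat/Agent/S32/{Spec,Top,OfS19}.lean`)
applied to the frozen statement S19 (`A3.H615.frozenS19`, cell A3).

Pieces: ORD `A3.H619.ord`, EIG `S32.flatEigenStatement_of_chain` (flat Tate eigenmodules on the
landed chain of row S30), REL `S32.H692.rel`, EMB `S32.H152.embedStatement`,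
RED `S32.H185.red`, POINTS `S59.G4.H109.points`.
-/

set_option autoImplicit false
variable {p : ℕ} {N : ℕ} [NeZero N] {S : Finset ℕ}
  {𝒪 : Type} [CommRing 𝒪] [IsDomain 𝒪] [IsDiscreteValuationRing 𝒪]
  [IsAdicComplete (IsLocalRing.maximalIdeal 𝒪) 𝒪]
  {θ : CuspForm.heckeAlgebra N 2 (↑S : Set ℕ) →+* IsLocalRing.ResidueField 𝒪}
  {T : Type} [CommRing T] [IsLocalRing T] [IsNoetherianRing T]
  [IsAdicComplete (IsLocalRing.maximalIdeal T) T] [Algebra 𝒪 T] [IsLocalHom (algebraMap 𝒪 T)]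
  [Module.Finite 𝒪 T] [Module.Free 𝒪 T]
open CuspForm CuspForm.HeckeGaloisRepDatum

namespace Fermat.Agent.S32

theorem result
    [Finite (IsLocalRing.ResidueField 𝒪)] [CharZero 𝒪]
    (hp : p.Prime) (hp2 : p ≠ 2) (hp𝒪 : (p : 𝒪) ∈ IsLocalRing.maximalIdeal 𝒪) (hpN : ¬ p ∣ N)
    (hpS : p ∈ S) (hNS : ∀ q : ℕ, q.Prime → q ∣ N → q ∈ S)
    (H : CuspForm.HeckeGaloisRepDatum N (↑S : Set ℕ) 𝒪 θ T) :
    H.ρ.IsFlatAt p :=
  s32_of_frozen_s19 (fun p _ ℓ _ hℓp k => Fermat.Agent.A3.H615.frozenS19 p ℓ hℓp k)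
    hp hp2 hp𝒪 hpN hpS hNS H

end Fermat.Agent.S32
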