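import Fermat.Statements.S33
import Fermat.Agent.Pack.S33.E23L0
import Fermat.Agent.Pack.S33.E22L0

/-
S33 (row 32): a Hecke-Galois datum of level `N` with `p ∥ N`, `p` odd, is ordinary at `p` as soon
as its residual representation is.

Chain: `S33.result_of_key` (`S33/Final.lean`: frozen S33 from the KEY statement) applied to
`S33.H849.keyStatement_of_chain` (the (S2)-chain at READY levels: all odd `p`, `p = 3 → 2 ∣ M'`)
with its three leaves
  SL      = `Ribet.H573.splitLift`          (`Ribet/H573/WeakApprox.lean`),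
  NC      = `Ribet.H279.NC.normContr`       (`Ribet/H279/NormContr.lean`),
  DKReady = `S33.H558.deepKummerReady`      (`S33/H558/DKReady.lean`),
and the old part `S33.H692.oldAugStatement` (`S33/H692/OldAug.lean`, via S19).
Realizer family of `S31.powTr`: `S31.H982.TracePow` only.
-/








set_option autoImplicit false
variable {p : ℕ} {N : ℕ} [NeZero N] {S : Finset ℕ}
  {𝒪 : Type} [CommRing 𝒪] [IsDomain 𝒪] [IsDiscreteValuationRing 𝒪]
  [IsAdicComplete (IsLocalRing.maximalIdeal 𝒪) 𝒪]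
  {θ : CuspForm.heckeAlgebra N 2 (↑S : Set ℕ) →+* IsLocalRing.ResidueField 𝒪}
  {T : Type} [CommRing T] [IsLocalRing T] [IsNoetherianRing T]
  [IsAdicComplete (IsLocalRing.maximalIdeal T) T] [Algebra 𝒪 T] [IsLocalHom (algebraMap 𝒪 T)]
  [Module.Finite 𝒪 T] [Module.Free 𝒪 T]
open CuspForm CuspForm.HeckeGaloisRepDatum

namespace Fermat.Agent.S33

theorem result
    [Finite (IsLocalRing.ResidueField 𝒪)] [CharZero 𝒪]
    (hp : p.Prime) (hp2 : p ≠ 2) (hp𝒪 : (p : 𝒪) ∈ IsLocalRing.maximalIdeal 𝒪) (hN : p ∣ N ∧ ¬ p ^ 2 ∣ N)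
    (hNS : ∀ q : ℕ, q.Prime → q ∣ N → q ∈ S)
    (H : CuspForm.HeckeGaloisRepDatum N (↑S : Set ℕ) 𝒪 θ T)
    (hres : (GaloisRepAdic.ofResidualGaloisRep H.ρ.residual).IsOrdinaryAt p) :
    H.ρ.IsOrdinaryAt p :=
  result_of_key
    (Fermat.Agent.S33.H849.keyStatement_of_chain
      Fermat.Agent.Ribet.H573.splitLift
      Fermat.Agent.Ribet.H279.NC.normContr
      Fermat.Agent.S33.H558.deepKummerReady
      Fermat.Agent.S33.H692.oldAugStatement)
    hp hp2 hp𝒪 hN hNS H hres

end Fermat.Agent.S33
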