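import Fermat.Statements.S34
import Fermat.Agent.Pack.S34.G0E14L0
import Fermat.Agent.Pack.S34.G0E13L3
import Fermat.Agent.Pack.S34.G0E12L1
import Fermat.Agent.Pack.S34.G0E12L2
import Fermat.Agent.Pack.S34.G0E11L1
import Fermat.Agent.Pack.S34.G0E13L2

/-
S34 (row 33): unipotent inertia at `q ∥ N`, `q ≠ p`, for a Hecke-Galois datum.

Chain: `S34.K789.result_of_wall` (S30-type glue with the unipotency clause; the two S18 nodes are
discharged inside) applied to the wall of cell A2 in its `SepCoord`-free form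
`A2.Top.H96.wall_noSep` with S2 (`Mod.H142.s2`), S3 (`Mod.H372.s3_of_leaves`) and GOODRED
(`Top.H216.goodRedStatement`).

`S34/K789` is a copy of `S34/H789` that does not import `S34.H193.Glue`: the equation lemma of
`S31.powTr` is realized with different proofs in `S31/H22/PowTr`, `S31/H169/PowTr` and
`A2/H493/FrobAlg`, so a closure may contain at most one of these three modules.
Closure: 756 Agent modules (521 shared with S30).  Checked with the kernel checker: PASS.
-/








set_option autoImplicit false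
set_option autoImplicit false
open IsLocalRing
open CuspForm CuspForm.HeckeGaloisRepDatum

namespace Fermat.Agent.S34

theorem result
    {𝒪 : Type} [CommRing 𝒪] [IsDomain 𝒪] [IsDiscreteValuationRing 𝒪]
    [IsAdicComplete (maximalIdeal 𝒪) 𝒪] [Finite (ResidueField 𝒪)] [CharZero 𝒪]
    {p : ℕ} (hp : p.Prime) (hp𝒪 : (p : 𝒪) ∈ maximalIdeal 𝒪)
    {N : ℕ} [NeZero N] {S : Finset ℕ} (hpS : p ∈ S) (hNS : ∀ q : ℕ, q.Prime → q ∣ N → q ∈ S)
    {θ : CuspForm.heckeAlgebra N 2 (↑S : Set ℕ) →+* ResidueField 𝒪}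
    {T : Type} [CommRing T] [IsLocalRing T] [IsNoetherianRing T]
    [IsAdicComplete (maximalIdeal T) T] [Algebra 𝒪 T] [IsLocalHom (algebraMap 𝒪 T)]
    [Module.Finite 𝒪 T] [Module.Free 𝒪 T]
    (H : CuspForm.HeckeGaloisRepDatum N (↑S : Set ℕ) 𝒪 θ T)
    (q : ℕ) (hq : q.Prime) (hqp : q ≠ p) (hqN : q ∣ N) (hq2 : ¬ q ^ 2 ∣ N) :
    H.ρ.IsUnipotentOnInertiaAt q := by
  exact Fermat.Agent.S34.K789.result_of_wall
    (Fermat.Agent.A2.Top.H96.wall_noSep
      (fun P E M q _ _ w => Fermat.Agent.A2.Mod.H142.s2 P E M q w)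
      (fun P E M q _ _ w => Fermat.Agent.A2.Mod.H372.s3_of_leaves P E M q w
        (Fermat.Agent.A2.Mod.H751.frickeExists E)
        (Fermat.Agent.A2.Mod.H751.frickeCompat E M q)
        (Fermat.Agent.A2.Mod.H900.frickeStable P E M q w)
        (Fermat.Agent.A2.Mod.H31.deg E M q)
        (Fermat.Agent.A2.Mod.H378.resInf P E M q w)
        (Fermat.Agent.A2.Mod.H96.kron P E M q w)
        (Fermat.Agent.A2.Mod.H142.s2 P E M q w))
      Fermat.Agent.A2.Top.H216.goodRedStatement)
    hp hp𝒪 hpS hNS H q hq hqp hqN hq2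

end Fermat.Agent.S34
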