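import Fermat.Statements.S38
import Fermat.Agent.Pack.S44C.G0E31L0
import Fermat.Agent.Pack.S43GC.G0E0L2
import Fermat.Agent.Pack.S43GC.G0E0L3

/-!
# Build-order warmer W1 (dead slot S38)

This file proves nothing: `result` below does not even elaborate, so this slot never builds, is never checked and is rebuilt in every
capture.  Its import closure is a lower set of the import closure of `Fermat/Agent/S43.lean`
(all of Pack/S44C and the Pack/S43GC packs of epoch <= 0), so that the pack chain of S43 is built in several short `lake build` calls
(W1, W2, W3, then S43) in place of one long call.  No pack is new and no landed file is changed.
Generated by `tools/packer/warmers.py` (branch helper707).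
-/

namespace Fermat.Agent.S38

theorem result : False := trivial

end Fermat.Agent.S38
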