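import Fermat.Statements.S40
import Fermat.Agent.Pack.S43MC.G0E18L0
import Fermat.Agent.Pack.S43MC.G0E18L1
import Fermat.Agent.Pack.S43MC.G0E18L2
import Fermat.Agent.Pack.S43MC.G0E18L3

/-!
# Build-order warmer W3 (dead slot S40)

This file proves nothing: `result` below does not even elaborate, so this slot never builds, is never checked and is rebuilt in every
capture.  Its import closure is a lower set of the import closure of `Fermat/Agent/S43.lean`
(all of Pack/S44C and Pack/S43GC and the Pack/S43MC packs of epoch <= 18), so that the pack chain of S43 is built in several short `lake build` calls
(W1, W2, W3, then S43) in place of one long call.  No pack is new and no landed file is changed.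
Generated by `tools/packer/warmers.py` (branch helper707).
-/

namespace Fermat.Agent.S40

theorem result : False := trivial

end Fermat.Agent.S40
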