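import Fermat.Statements.S43
import Fermat.Agent.Pack.S43C.E2L3
import Fermat.Agent.Pack.S43MC.G0E29L0
import Fermat.Agent.Pack.S44C.G0E19L2
import Fermat.Agent.Pack.S43C.E4L0








/-!
# S43 — Ribet's level lowering, Frey-curve form (row 37)

    S43 = H723.S43_of_hardMinScalar  <S44>  <S05>  <Mazur's principle at odd q, sharp form>  <HARD>

* `<S44>`  = `Ribet.H943.S44Top.s44` (row 38, helper943);
* `<S05>`  = `S05.result`;
* Mazur's principle = `Ribet.H158.WallQ.mazurPrincipleOddPlus` (WALL-q, helper158);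
* `<HARD>` = `S38.IA.hardMinScalar_closed` (row HARD: Ihara avoidance, single-sided form;
  row-lead helper995, HECKE sub-architect helper3, TOP helper401/727, board `coord/HARD.md`).
-/

set_option autoImplicit false
open WeierstrassCurve WeierstrassCurve.Affine WeierstrassCurve.Affine.Point
open CuspForm ModularFormClass UpperHalfPlane
open FreyPackage

namespace Fermat.Agent.S43

theorem result (P : FreyPackage) {N q : ℕ} (hcond : P.IsConductorLevel N) (hq : q.Prime) (hq2 : q ≠ 2) (hqp : q ≠ P.p) (hqN : q ∣ N) (hirr : GaloisRepIsIrreducible (K := AlgebraicClosure ℚ) ℚ P.freyCurve P.p) (hmod : P.ModularRepOfLevel N) (hunr : P.GaloisRepUnramifiedAt q) : ∃ M : ℕ, M ∣ N ∧ ¬ q ∣ M ∧ P.ModularRepOfLevel M :=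
  Fermat.Agent.Ribet.H723.S43_of_hardMinScalar
    Fermat.Agent.Ribet.H943.S44Top.s44
    (fun P _ hq hq2 hqp => Fermat.Agent.S05.result P hq hq2 hqp)
    Fermat.Agent.Ribet.H158.WallQ.mazurPrincipleOddPlus
    Fermat.Agent.S38.IA.hardMinScalar_closed
    P hcond hq hq2 hqp hqN hirr hmod hunr

end Fermat.Agent.S43
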