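import Fermat.Statements.S44
import Fermat.Agent.Pack.S44C.G0E31L0
import Fermat.Agent.Pack.S44C.G0E30L1
import Fermat.Agent.Pack.S44C.G0E30L2









/-!
# S44 — Mazur–Ribet, Frey-curve form: `p` can be removed from a conductor level

Row 38 (RIBET, WALL-p).  Assembly of the leaves on main:
(S1)+(ALG-p)+(I2)+(I3) inside `H943.Final2`, (S2) `H558.s2Five`, (S4) = EIS-SLOPE from
CORE-OUT (TAME `H912.tameFixed` via `H967.Tame.tame_of_fixed`, WILD via `H132.wild_of_frame`
from the frame) and CUSP `H399.cuspPurity5Leaf`.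
-/

set_option autoImplicit false
open WeierstrassCurve WeierstrassCurve.Affine WeierstrassCurve.Affine.Point
open CuspForm ModularFormClass UpperHalfPlane
open FreyPackage

namespace Fermat.Agent.S44

theorem result (P : FreyPackage) {N : ℕ} (hcond : P.IsConductorLevel N) (hpN : P.p ∣ N) (hirr : GaloisRepIsIrreducible (K := AlgebraicClosure ℚ) ℚ P.freyCurve P.p) (hmod : P.ModularRepOfLevel N) : ∃ M : ℕ, M ∣ N ∧ ¬ P.p ∣ M ∧ P.ModularRepOfLevel M :=
  Fermat.Agent.Ribet.H943.Final2.S44_of_open Fermat.Agent.Ribet.H558.s2Five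
    (Fermat.Agent.Ribet.H884.eisSlope_of_frontier5
      (Fermat.Agent.Ribet.H704.CoreOut.coreOutNE_of_tame_wild
        (Fermat.Agent.Ribet.H967.Tame.tame_of_fixed Fermat.Agent.Ribet.H912.tameFixed)
        (Fermat.Agent.Ribet.H132.wild_of_frame Fermat.Agent.Ribet.H712.Frame.wildFrame))
      Fermat.Agent.Ribet.H399.cuspPurity5Leaf)
    P hcond hpN hirr hmod

end Fermat.Agent.S44
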