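import Fermat.Statements.S46
import Fermat.Agent.Pack.S45.E4L0
import Fermat.Agent.Pack.S59C.E16L0

/-!
# Build-order warmer W4 (dead slot S46)

This file proves nothing: `result` below does not even elaborate, so this slot never builds, is never checked and is rebuilt in every
capture.  Its import closure is the import closure of the landed `Fermat/Agent/S45.lean` without that top
(all of Pack/S44C, Pack/S43GC, Pack/S43MC, Pack/S43C, Pack/S59C and Pack/S45), a lower set of the closure of every top
that sorts after S45.  Purpose: when S43 / S59 / S45 are carried (not rebuilt), the rest of the landed pack chain is
built by THIS `lake build` call with the lane width it was designed and measured with, and not inside the call of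
the first new top, where the packs of Pack/L1 that need only the lower chain layers would be compiled beside it
(simulated width 10 in place of 6).  No pack is new and no landed file is changed.
-/

namespace Fermat.Agent.S46

theorem result : False := trivial

end Fermat.Agent.S46
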