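-- Statement S49 (row 44): Deligne–Serre lifting lemma for lattice-realised eigensystems.
import Fermat.Statements.S49
import Fermat.Agent.S49.GoingUp
import Fermat.Agent.S49.LinAlg
import Fermat.Agent.S49.Integral
import Fermat.Agent.S49.Normalize
import Fermat.Agent.S49.ModThree

set_option autoImplicit false
open CuspForm EisensteinWeightOne CongruenceSubgroup ModularFormClass
open FLT FLT.AbstractIntegralStructure

namespace Fermat.Agent.S49

theorem result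
    {N : ℕ} [NeZero N] (h : CuspForm.HasIntegralBasis N) {a : ℕ → ℤ}
    (heig : FormalHecke.IsEigensystem
      (fun ℓ => if ℓ ∣ N then 0 else ((chiNegThree ℓ : ℤ) : ℤ)) a)
    (hreal : CuspForm.IsLatticeRealized N a) :
    ∃ (f : CuspForm (Gamma0 N) 2) (_ : f.IsNormalizedEigenform)
      (𝔪' : Ideal (integralClosure ℤ ℂ)), 𝔪'.IsMaximal ∧
      ((3 : ℕ) : integralClosure ℤ ℂ) ∈ 𝔪' ∧
      ∀ (ℓ : ℕ) (_ : ℓ.Prime) (_ : ¬ ℓ ∣ N),
        ∃ c : integralClosure ℤ ℂ, (c : ℂ) = ModularFormClass.qCoeff f ℓ ∧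
          c - (a ℓ : integralClosure ℤ ℂ) ∈ 𝔪' := by
  classical
  obtain ⟨𝔫, h𝔫max, h3, hT⟩ := exists_maximal_ideal_mod_three heig hreal
  have := finiteDimensional_of_hasIntegralBasis h
  have : 𝔫.IsPrime := h𝔫max.isPrime
  obtain ⟨g, χ, hg, hχ, hker⟩ := exists_eigenvector_ker_le
    (K := ℂ) (V := CuspForm (Gamma0 N) 2)
    ((heckeAlgebra N 2 (∅ : Set ℕ)).val.toRingHom) Subtype.val_injective 𝔫
  -- the eigencharacter takes values in the integral closure
  have hint : ∀ t, χ t ∈ integralClosure ℤ ℂ := fun t =>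
    (isIntegral_heckeAlgebra h t).map χ.toIntAlgHom
  let χ' : heckeAlgebra N 2 (∅ : Set ℕ) →+* integralClosure ℤ ℂ :=
    χ.codRestrict (integralClosure ℤ ℂ).toSubring hint
  have hχ' : ∀ t, ((χ' t : integralClosure ℤ ℂ) : ℂ) = χ t := fun t => rfl
  have hker' : RingHom.ker χ' ≤ 𝔫 := by
    intro t ht
    apply hker
    rw [RingHom.mem_ker] at ht ⊢
    rw [← hχ', ht]
    rfl
  obtain ⟨𝔪', h𝔪', hover⟩ := exists_maximal_over χ' 𝔫 hker'
  obtain ⟨f, hf, hfℓ⟩ := exists_normalized_eigenform g hg χ hχ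
  refine ⟨f, hf, 𝔪', h𝔪', ?_, ?_⟩
  · have h3' := hover _ h3
    rw [map_ofNat] at h3'
    simpa using h3'
  · intro ℓ hℓ hℓN
    refine ⟨χ' (heckeAlgebra.T hℓ hℓN (Set.notMem_empty _)), ?_, ?_⟩
    · rw [hχ', hfℓ ℓ hℓ hℓN]
    · have := hover _ (hT ℓ hℓ hℓN)
      simpa using this

end Fermat.Agent.S49
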