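import Fermat.Statements.S50
import Fermat.Agent.Pack.S45.E4L0
import Fermat.Agent.Pack.S59C.E16L0
import Fermat.Agent.Pack.L1.E10L0

/-!
# Build-order warmer W5 (dead slot S50)

This file proves nothing: `result` below does not even elaborate, so this slot never builds, is never checked and is rebuilt in every
capture.  Its import closure is the landed chain with Pack/S45 (the closure of warmer W4) and all of Pack/L1, a lower
set of the closure of every top that imports the Pack/L1 sink.  Purpose: Pack/L1 is compiled by THIS `lake build`
call, after the whole landed chain and before the layers that are chained behind the Pack/L1 sink, at the lane
width 4 it was measured with.  No landed file is changed.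
-/

namespace Fermat.Agent.S50

theorem result : False := trivial

end Fermat.Agent.S50
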