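import Fermat.Statements.S52
import Fermat.Agent.S52.PartAGlue
import Fermat.Agent.Lib.Frob.Glue
import Fermat.Agent.Lib.Frob.A1.Main
import Fermat.Agent.Lib.Frob.A2.Main
import Fermat.Agent.S52.B.B1.H170.Main
import Fermat.Agent.S52.B.B2.H352.SwitchP
import Fermat.Agent.S52.B3.H352.FamilyHIT

set_option autoImplicit false
open WeierstrassCurve WeierstrassCurve.Affine WeierstrassCurve.Affine.Point
open CuspForm ModularFormClass UpperHalfPlane
open WeierstrassCurve

namespace Fermat.Agent.S52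

theorem result (W : WeierstrassCurve ℤ) (hΔ : W.Δ ≠ 0) (hW : W.IsSemistableModel) (h5 : W.ModRepIsIrreducible 5) : ∃ W' : WeierstrassCurve ℤ, W'.Δ ≠ 0 ∧ W'.IsSemistableModel ∧ W'.ModRepIsIrreducible 3 ∧ ∀ ℓ : ℕ, ℓ.Prime → W.IsGoodPrimeFor ℓ → W'.IsGoodPrimeFor ℓ → ℓ ≠ 5 → (5 : ℤ) ∣ (W'.apOfModel ℓ - W.apOfModel ℓ) := by
  have hA : PartA :=
    partA_of_frobRelation
      (Fermat.Agent.Lib.Frob.frobRelation_of_parts Fermat.Agent.Lib.Frob.frobRelationFin
        Fermat.Agent.Lib.Frob.reductionData)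
  have hB : Switch :=
    Fermat.Agent.S52.B.B2.H352.switch_of_partsP Fermat.Agent.S52.B.B2.H352.integralModelP
      Fermat.Agent.S52.B3.H352.familyHIT Fermat.Agent.S52.B.B1.H170.torsionMap
  exact result_of_parts hA hB W hΔ hW h5

end Fermat.Agent.S52
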