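-- Statement S55 (row 49): Poitou–Tate duality between Ш¹_S of the Tate-twisted dual and Ш²_S.
-- Proof: engine E1 (`E1.Lim.engineSpecFin`, tower limit of the finite-level nine-term
-- sequences) applied to the global input of layer G (`Fin.globalInputSpec`, the class module
-- of the S-idèle classes from the reciprocity law), wired by `E1.S55_of_engine_global`.
import Fermat.Statements.S55
import Fermat.Agent.S55.E1.Lim.Engine
import Fermat.Agent.S55.Fin.FinRec

set_option autoImplicit false
set_option autoImplicit false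
open CategoryTheory Module groupCohomology ExtCitation
open groupCohomology

namespace Fermat.Agent.S55

theorem result
    {p : ℕ} [Fact p.Prime] (hp2 : p ≠ 2) (S : Finset Nat.Primes) (hpS : pPrime p ∈ S)
    (M : Rep (ZMod p) (AlgebraicClosure ℚ ≃ₐ[ℚ] AlgebraicClosure ℚ))
    [FiniteDimensional (ZMod p) M]
    (hsm : ∀ m : M, ∃ F : IntermediateField ℚ (AlgebraicClosure ℚ), FiniteDimensional ℚ F ∧
      ∀ s ∈ F.fixingSubgroup, M.ρ s m = m)
    (hMur : ∀ q : Nat.Primes, q ∉ S → ∀ A : ValuationSubring (AlgebraicClosure ℚ),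
      A.LiesOverPrime (q : ℕ) → ∀ g ∈ A.inertiaSubgroupIn ℚ, M.ρ g = 1) :
    ∃ B : sha₁ S (M.dualTwist (cycloChar p)) →ₗ[ZMod p] sha₂ S M →ₗ[ZMod p] ZMod p,
      (∀ y, (∀ x, B y x = 0) → y = 0) ∧ (∀ x, (∀ y, B y x = 0) → x = 0) := by
  exact E1.S55_of_engine_global E1.Lim.engineSpecFin Fin.globalInputSpec hp2 S hpS M hsm hMur

end Fermat.Agent.S55
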