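import Fermat.Statements.S57
import Fermat.Agent.S57.ABLite
import Fermat.Agent.S57.RegSeq
import Fermat.Agent.S57.Transport
import Fermat.Agent.S57.Endgame

set_option autoImplicit false
open Algebra Algebra.PatchingLevel

namespace Fermat.Agent.S57

open MvPowerSeries RingTheory.Sequence IsLocalRing in
/-- The module `L.N` of a patching level with trivial relation ideal is free over the power
series ring (for its own module structure): it is maximal Cohen-Macaulay over a regular local
ring. -/
theorem free_N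
    {𝒪 : Type} [CommRing 𝒪] [IsDomain 𝒪] [IsDiscreteValuationRing 𝒪]
    {r : ℕ} {R : Type} [CommRing R] [Algebra 𝒪 R]
    {M : Type} [AddCommGroup M] [Module R M] [Nontrivial M]
    (L : Algebra.PatchingLevel 𝒪 r R M ⊥) :
    Module.Free (MvPowerSeries (Fin r) 𝒪) L.N := by
  classical
  obtain ⟨ϖ, hirr, hreg, hmax, hlen⟩ := exists_isRegular_paramList r 𝒪
  have := finite_N L
  have := nontrivial_N L
  have : Nontrivial R := Module.nontrivial R M
  -- the `φ X_i` lie in the maximal ideal
  have hX : ∀ i : Fin r, L.φ (X i) ∈ maximalIdeal (MvPowerSeries (Fin r) 𝒪) := by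
    intro i
    rw [IsLocalRing.mem_maximalIdeal, mem_nonunits_iff]
    intro hu
    have h1 : IsUnit (L.ψ (L.φ (X i))) := hu.map L.ψ
    rw [L.ψ_φ_X i] at h1
    exact not_isUnit_zero h1
  have hC : L.φ (C ϖ) ∈ maximalIdeal (MvPowerSeries (Fin r) 𝒪) := by
    have h1 : (C ϖ : MvPowerSeries (Fin r) 𝒪) = algebraMap 𝒪 (MvPowerSeries (Fin r) 𝒪) ϖ := rfl
    rw [h1, AlgHom.commutes, ← h1, ← hmax]
    exact Ideal.subset_span (by simp [paramList])
  have hmem : ∀ y ∈ (paramList r 𝒪 ϖ).map L.φ, y ∈ maximalIdeal (MvPowerSeries (Fin r) 𝒪) := by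
    intro y hy
    obtain ⟨x, hx, rfl⟩ := List.mem_map.mp hy
    simp only [paramList, varList, List.mem_append, List.mem_ofFn, List.mem_singleton] at hx
    rcases hx with ⟨i, rfl⟩ | rfl
    · exact hX i
    · exact hC
  have hwr : IsWeaklyRegular L.N ((paramList r 𝒪 ϖ).map L.φ) :=
    isWeaklyRegular_map_phi L hreg.toIsWeaklyRegular
  refine ABLite.free_of_isWeaklyRegular (paramList r 𝒪 ϖ).toFinset ?_
    ((paramList r 𝒪 ϖ).map L.φ) ?_ hmem hwr
  · rw [← hmax]
    unfold Ideal.ofList
    congr 1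
    ext x
    simp
  · rw [List.length_map]
    exact List.toFinset_card_le _

theorem result
    {𝒪 : Type} [CommRing 𝒪] [IsDomain 𝒪] [IsDiscreteValuationRing 𝒪]
    {r : ℕ} {R : Type} [CommRing R] [Algebra 𝒪 R]
    {M : Type} [AddCommGroup M] [Module R M] [Nontrivial M]
    (L : Algebra.PatchingLevel 𝒪 r R M ⊥) :
    Module.Free R M ∧ Module.annihilator R M = ⊥ ∧
      RingHom.ker L.ψ = Ideal.span (Set.range fun i : Fin r => L.φ (MvPowerSeries.X i)) := by
  have := free_N L
  exact endgame L

end Fermat.Agent.S57
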