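import Fermat.Statements.S58
import Fermat.Agent.Pack.S58.E6L0
import Fermat.Agent.Pack.S36.E21L0
import Fermat.Agent.Pack.S36.E21L1






/-
S58 (row 52).  Chain: `S58.H94.s58_of_model3_h94` (conductor-level matching from the plain chains
of S35 and S36; ALG3 = `S36.Alg3.alg3` plugged) applied to the same MOD3 term as `S36.lean`:
`S36.Mod3.H928.model3_of_cuspCong S36.Mod3.H96.leafCuspCong96`.
-/

set_option autoImplicit false
open WeierstrassCurve

namespace Fermat.Agent.S58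

theorem result
    (W : WeierstrassCurve ℤ) (hss : W.IsSemistableModel) (N : ℕ)
    (p : ℕ) [Fact p.Prime] (hp2 : p ≠ 2) (hirr : W.ModRepIsIrreducible p)
    (hp2N : ¬ p ^ 2 ∣ N)
    (hN : W.IsModularModelOfLevel N) (hbad : ∀ ℓ : ℕ, ℓ.Prime → (ℓ : ℤ) ∣ W.Δ → ℓ ∣ N)
    (hN3 : ∀ q : ℕ, q.Prime → ¬ q ^ 3 ∣ N) :
    W.IsModularModelOfLevel W.conductorLevel :=
  Fermat.Agent.S58.H94.s58_of_model3_h94
    (Fermat.Agent.S36.Mod3.H928.model3_of_cuspCong Fermat.Agent.S36.Mod3.H96.leafCuspCong96)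
    W hss N p hp2 hirr hp2N hN hbad hN3

end Fermat.Agent.S58
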