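import Fermat.Statements.S59
import Fermat.Agent.Pack.S59C.E16L0





/-!
# S59 — modularity lifting (`R = T`) at `p ∈ {3, 5}` (row 53)

    result = Arch.s59_of_c LoSqC.H433.sqFree35_433

Chain (architect helper239, row-lead helper41; every cell on the PLAIN tops of the rows):

* `Arch.s59_of_levelOpt` (`S59/Arch/Final2.lean`): S59 from the level optimisation `LevelOpt`;
  plugged: S58 (helper94), DICT (helper401), the Taylor–Wiles cell TW (helper959 wiring; PKG
  helper659, CMP helper314, DictR helper673), NM / NMP (helper254, helper341, LGC helper135);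
* the cell LO in `W`-form at `p ∈ {3, 5}` (`S59/Arch/LOW.lean`, `Final3.lean`, `Plug*.lean`):
  (A)  wall at `p`: `WallP3.cellA` (cell architect helper944);
  (B1) Mazur's principle: `LOQ.H213.mazurW35` (helper213, helper158);
  (B2) pivots, Ihara avoidance for both types at `p`: `LO.H405.pivotW35_closed`
       (helper405 on the cell HECKE-T of helper3, IA core of helper546);
  (C)  squares in the level: `LoSqC.H433.sqFree35_433` (cell architect helper885, top helper826,
       assembly helper433, CI helper608).
-/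

set_option autoImplicit false
open scoped WeierstrassCurve.Affine
open WeierstrassCurve

namespace Fermat.Agent.S59

theorem result (p : ℕ) (hp : p = 3 ∨ p = 5)
    (W : WeierstrassCurve ℤ) (hΔ : W.Δ ≠ 0) (hW : W.IsSemistableModel) (hirr : W.ModRepIsIrreducible p)
    (M₀ : ℕ) [NeZero M₀] (hres₀ : W.IsResiduallyModularOfLevel p M₀)
    (hM₀ : ¬ p ^ 2 ∣ M₀)
    (hM₀3 : ∀ q : ℕ, q.Prime → q ≠ p → ¬ q ^ 3 ∣ M₀) :
    Mlc1IsModularModelOfExactConductorLevel W :=
  Fermat.Agent.S59.Arch.s59_of_c Fermat.Agent.S59.LoSqC.H433.sqFree35_433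
    p hp W hΔ hW hirr M₀ hres₀ hM₀ hM₀3

end Fermat.Agent.S59
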